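/-
S35 / cell FROB, leaf B2 (helper155): the two degeneracy push-forwards
`α_*, β_* : J₀(N q) → J₀(N)`.

* `pushforwardPic0Along`       : push-forward on `Pic0` along a finite homomorphism of function
                                 fields with norm formula (abstract; Prelude language);
* `pushforwardPic0Along_smul`  : equivariance for intertwined semilinear automorphisms;
* `pushA`, `pushB`             : `α_*`, `β_*` on `JZero (N * q) →+ JZero N`;
* `pushA_galois`, `pushB_galois`: Galois equivariance;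
* `hecke_eq_frob`              : on `p`-power torsion `T_ℓ y = σ y + ℓ σ⁻¹ y` for every Frobenius
                                 lift `σ` at `ℓ ∤ N p` (from the torsion relations (T));
* `map_hecke_of_galois`        : ANY Galois-equivariant additive map `J₀(M) → J₀(N)` commutes with
                                 `T_ℓ` (`ℓ ∤ M N p`) on `p`-power torsion, given (T) at both levels;
* `pushA_hecke`, `pushB_hecke` : the instances for `α_*`, `β_*`;
* `IsQNew`                     : `x` is `q`-new (`α_* x = 0 = β_* x`), stability lemmas.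

The torsion relations are taken in UNFOLDED form (`TorsRel`, definitionally equal to
`Fermat.Agent.S30.H330.TorsionRelations`), so this file does not import the S30 tower.
-/
import Mathlib
import Fermat.Prelude.Def_ModularCurve_HeckeModule
import Fermat.Agent.S29.H571.HeckeGalois
import Fermat.Agent.Lib.FF398.Hecke
import Fermat.Agent.S37.H99.FrobAt

set_option autoImplicit false
set_option linter.style.haveILetI false

noncomputable section

namespace Fermat.Agent.S35.H155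

open AlgebraicCurve ModularCurve Fermat.Agent.Lib.FF398

/-! ### Abstract push-forward on `Pic0` -/

section Abstract

variable {K F F' : Type*} [Field K] [Field F] [Field F'] [Algebra K F] [Algebra K F']
variable (φ : F →ₐ[K] F') (hφ : φ.toRingHom.IsIntegral)
variable (hfin : FiniteAlong K φ) (hN : NormFormulaAlong K φ hfin)

/-- Push-forward of degree-zero divisors along `φ`. -/
def pushforwardDegZeroAlong :
    Divisor.degZero (K := K) (F := F') →+ Divisor.degZero (K := K) (F := F) :=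
  ((Divisor.pushforwardAlong φ hφ).domRestrict (Divisor.degZero (K := K) (F := F'))).codRestrict _
    fun D => Divisor.pushforwardAlong_mem_degZero φ hφ D.2

@[simp]
theorem coe_pushforwardDegZeroAlong (D : Divisor.degZero (K := K) (F := F')) :
    (pushforwardDegZeroAlong φ hφ D : Divisor K F) =
      Divisor.pushforwardAlong φ hφ (D : Divisor K F') := rfl

/-- Push-forward on `Pic0` along `φ` (the degeneracy map `π_*`). -/
def pushforwardPic0Along : Pic0 K F' →+ Pic0 K F :=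
  QuotientAddGroup.map _ _ (pushforwardDegZeroAlong φ hφ) (by
    rintro ⟨D, hD0⟩ hD
    simp only [AddSubgroup.mem_addSubgroupOf] at hD ⊢
    exact Divisor.isPrincipal_pushforwardAlong φ hφ hfin hN hD)

theorem pushforwardPic0Along_mk (D : Divisor.degZero (K := K) (F := F')) :
    pushforwardPic0Along φ hφ hfin hN (Pic0.mk D) = Pic0.mk (pushforwardDegZeroAlong φ hφ D) :=
  rfl

/-- `π_*` on `Pic0` is equivariant for intertwined semilinear automorphisms. -/
theorem pushforwardPic0Along_smul {g : SemilinearAut K F} {g' : SemilinearAut K F'}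
    (h : SemilinearAut.IntertwinesAlong (φ : F →+* F') g g') (x : Pic0 K F') :
    pushforwardPic0Along φ hφ hfin hN (g' • x) = g • pushforwardPic0Along φ hφ hfin hN x := by
  obtain ⟨D, rfl⟩ := Pic0.mk_surjective x
  rw [SemilinearAut.pic0_smul_mk, pushforwardPic0Along_mk, pushforwardPic0Along_mk,
    SemilinearAut.pic0_smul_mk]
  refine congrArg Pic0.mk (Subtype.ext ?_)
  rw [coe_pushforwardDegZeroAlong, SemilinearAut.coe_degZeroSMulHom,
    SemilinearAut.coe_degZeroSMulHom, coe_pushforwardDegZeroAlong]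
  exact Fermat.Agent.S29.H571.pushforwardAlong_smul φ hφ h (D : Divisor K F')

/-- The class of `D` is killed by `π_*` iff `π_* D` is principal. -/
theorem pushforwardPic0Along_mk_eq_zero_iff (D : Divisor.degZero (K := K) (F := F')) :
    pushforwardPic0Along φ hφ hfin hN (Pic0.mk D) = 0 ↔
      (Divisor.pushforwardAlong φ hφ (D : Divisor K F')).IsPrincipal := by
  rw [pushforwardPic0Along_mk]
  change ((QuotientAddGroup.mk (pushforwardDegZeroAlong φ hφ D) :
    Divisor.degZero (K := K) (F := F) ⧸ _) = 0) ↔ _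
  rw [QuotientAddGroup.eq_zero_iff]
  simp only [AddSubgroup.mem_addSubgroupOf, coe_pushforwardDegZeroAlong]
  rfl

end Abstract

/-! ### The degeneracy push-forwards on `J₀` -/

abbrev Kbar : Type := AlgebraicClosure ℚ

abbrev GQ : Type := Kbar ≃ₐ[ℚ] Kbar

section Degeneracy

variable (N q : ℕ) [NeZero N] [NeZero q]

/-- `α_* : J₀(N q) → J₀(N)`, push-forward along the inclusion `heckeAlphaBar`. -/
def pushA : JZero (N * q) →+ JZero N :=
  pushforwardPic0Along (heckeAlphaBar Kbar N q) (heckeAlphaBarIntegral N q)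
    (finiteAlong_alpha N q) (normFormulaAlong_alpha N q)

/-- `β_* : J₀(N q) → J₀(N)`, push-forward along `heckeBetaBar` (`f(τ) ↦ f(qτ)`). -/
def pushB : JZero (N * q) →+ JZero N :=
  pushforwardPic0Along (heckeBetaBar Kbar N q) (heckeBetaBarIntegral N q)
    (finiteAlong_beta N q) (normFormulaAlong_beta N q)

theorem pushA_galois (σ : GQ) (x : JZero (N * q)) : pushA N q (σ • x) = σ • pushA N q x := by
  rw [galois_smul_pic0_def, galois_smul_pic0_def]
  exact pushforwardPic0Along_smul _ _ _ _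
    (Fermat.Agent.S29.H571.intertwines_heckeAlphaBar N q σ) x

theorem pushB_galois (σ : GQ) (x : JZero (N * q)) : pushB N q (σ • x) = σ • pushB N q x := by
  rw [galois_smul_pic0_def, galois_smul_pic0_def]
  exact pushforwardPic0Along_smul _ _ _ _
    (Fermat.Agent.S29.H571.intertwines_heckeBetaBar N q σ) x

theorem pushA_mk_eq_zero_iff
    (D : Divisor.degZero (K := Kbar) (F := modularFunctionFieldBar (N * q))) :
    pushA N q (Pic0.mk D) = 0 ↔
      (Divisor.pushforwardAlong (heckeAlphaBar Kbar N q) (heckeAlphaBarIntegral N q)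
        (D : Divisor Kbar (modularFunctionFieldBar (N * q)))).IsPrincipal :=
  pushforwardPic0Along_mk_eq_zero_iff _ _ _ _ D

theorem pushB_mk_eq_zero_iff
    (D : Divisor.degZero (K := Kbar) (F := modularFunctionFieldBar (N * q))) :
    pushB N q (Pic0.mk D) = 0 ↔
      (Divisor.pushforwardAlong (heckeBetaBar Kbar N q) (heckeBetaBarIntegral N q)
        (D : Divisor Kbar (modularFunctionFieldBar (N * q)))).IsPrincipal :=
  pushforwardPic0Along_mk_eq_zero_iff _ _ _ _ D

end Degeneracy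

/-! ### Hecke operators on torsion through Frobenius -/

/-- The torsion relations (T) at level `N` for the prime `p`, in unfolded form
(definitionally `Fermat.Agent.S30.H330.TorsionRelations N p`). -/
def TorsRel (N : ℕ) [NeZero N] (p : ℕ) : Prop :=
  ∀ (ℓ : ℕ) (hℓ : ℓ.Prime), ¬ ℓ ∣ N * p → ∀ A : ValuationSubring Kbar, A.LiesOverPrime ℓ →
    (∀ σ ∈ A.inertiaSubgroupIn ℚ, ∀ x : JZero N, (∃ n : ℕ, (p ^ n) • x = 0) → σ • x = x) ∧
    (∀ σ : GQ, A.IsFrobeniusAt σ ℓ → ∀ x : JZero N, (∃ n : ℕ, (p ^ n) • x = 0) →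
      σ • σ • x - heckeOperatorBar N ⟨ℓ, hℓ⟩ (σ • x) + ℓ • x = 0)

section Torsion

variable {N : ℕ} [NeZero N] {p : ℕ}

omit [NeZero N] in
theorem galois_torsion (σ : GQ) {x : JZero N} (hx : ∃ n : ℕ, (p ^ n) • x = 0) :
    ∃ n : ℕ, (p ^ n) • (σ • x) = 0 := by
  obtain ⟨n, hn⟩ := hx
  refine ⟨n, ?_⟩
  have h : (p ^ n) • (σ • x) = σ • ((p ^ n) • x) :=
    (map_nsmul (DistribSMul.toAddMonoidHom (JZero N) σ) (p ^ n) x).symm
  rw [h, hn]
  exact map_zero (DistribSMul.toAddMonoidHom (JZero N) σ)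

/-- On `p`-power torsion, `T_ℓ = σ + ℓ σ⁻¹` for every Frobenius lift `σ` at a prime
`ℓ ∤ N p`. -/
theorem hecke_eq_frob (hT : TorsRel N p) {ℓ : ℕ} (hℓ : ℓ.Prime) (hℓN : ¬ ℓ ∣ N * p)
    (A : ValuationSubring Kbar) (hA : A.LiesOverPrime ℓ) (σ : GQ) (hσ : A.IsFrobeniusAt σ ℓ)
    (y : JZero N) (hy : ∃ n : ℕ, (p ^ n) • y = 0) :
    heckeOperatorBar N ⟨ℓ, hℓ⟩ y = σ • y + ℓ • (σ⁻¹ • y) := by
  have h := (hT ℓ hℓ hℓN A hA).2 σ hσ (σ⁻¹ • y) (galois_torsion σ⁻¹ hy)
  rw [smul_inv_smul] at h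
  have h2 : σ • y + ℓ • (σ⁻¹ • y) - heckeOperatorBar N ⟨ℓ, hℓ⟩ y = 0 := by
    rw [← h]; abel
  exact (sub_eq_zero.mp h2).symm

end Torsion

section MapHecke

variable {M N : ℕ} [NeZero M] [NeZero N] {p : ℕ}

/-- **Hecke equivariance for free.**  Any Galois-equivariant additive map `J₀(M) → J₀(N)`
commutes with `T_ℓ` on `p`-power torsion, for every prime `ℓ ∤ M p`, `ℓ ∤ N p`, as soon as the
torsion relations (T) hold at both levels. -/
theorem map_hecke_of_galois (f : JZero M →+ JZero N) (hf : ∀ (σ : GQ) (x : JZero M),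
    f (σ • x) = σ • f x) (hTM : TorsRel M p) (hTN : TorsRel N p) {ℓ : ℕ} (hℓ : ℓ.Prime)
    (hℓM : ¬ ℓ ∣ M * p) (hℓN : ¬ ℓ ∣ N * p) (y : JZero M) (hy : ∃ n : ℕ, (p ^ n) • y = 0) :
    f (heckeOperatorBar M ⟨ℓ, hℓ⟩ y) = heckeOperatorBar N ⟨ℓ, hℓ⟩ (f y) := by
  obtain ⟨A, hA⟩ := Fermat.Agent.S54.exists_valuationSubring_liesOver ℓ hℓ
  obtain ⟨σ, hσ⟩ := Fermat.Agent.S37.H99.exists_isFrobeniusAt ℓ hℓ A hA
  have hfy : ∃ n : ℕ, (p ^ n) • f y = 0 := by
    obtain ⟨n, hn⟩ := hy
    exact ⟨n, by rw [← map_nsmul, hn, map_zero]⟩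
  rw [hecke_eq_frob hTM hℓ hℓM A hA σ hσ y hy, hecke_eq_frob hTN hℓ hℓN A hA σ hσ (f y) hfy,
    map_add, map_nsmul, hf, hf]

/-- Additive maps preserve `p`-power torsion. -/
theorem map_torsion {A B : Type*} [AddCommGroup A] [AddCommGroup B] (f : A →+ B) {y : A}
    (hy : ∃ n : ℕ, (p ^ n) • y = 0) : ∃ n : ℕ, (p ^ n) • f y = 0 := by
  obtain ⟨n, hn⟩ := hy
  exact ⟨n, by rw [← map_nsmul, hn, map_zero]⟩

/-- **Hecke equivariance for free, polynomial form.**  A Galois-equivariant additive map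
`J₀(M) → J₀(N)` commutes, on `p`-power torsion, with every element of the abstract Hecke algebra
supported on the variables `ℓ ∤ M N p`. -/
theorem map_heckeEval_of_galois (f : JZero M →+ JZero N) (hf : ∀ (σ : GQ) (x : JZero M),
    f (σ • x) = σ • f x) (hTM : TorsRel M p) (hTN : TorsRel N p)
    (hcM : HeckeOperatorsCommuteBar M) (hcN : HeckeOperatorsCommuteBar N)
    (t : HeckeAlg)
    (ht : t ∈ MvPolynomial.supported ℤ {ℓ : Nat.Primes | ¬ (ℓ : ℕ) ∣ M * p ∧ ¬ (ℓ : ℕ) ∣ N * p})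
    (y : JZero M) (hy : ∃ n : ℕ, (p ^ n) • y = 0) :
    f (heckeEvalBar hcM t y) = heckeEvalBar hcN t (f y) := by
  rw [MvPolynomial.supported_eq_adjoin_X] at ht
  induction ht using Algebra.adjoin_induction generalizing y with
  | mem t ht =>
    obtain ⟨ℓ, hℓ, rfl⟩ := ht
    rw [show (MvPolynomial.X ℓ : HeckeAlg) = heckeGen ℓ from rfl, heckeEvalBar_heckeGen,
      heckeEvalBar_heckeGen]
    exact map_hecke_of_galois f hf hTM hTN ℓ.2 hℓ.1 hℓ.2 y hy
  | algebraMap r =>
    rw [MvPolynomial.algebraMap_eq, heckeEvalBar_C, heckeEvalBar_C, Module.End.intCast_apply,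
      Module.End.intCast_apply, map_zsmul]
  | add a b _ _ ha hb =>
    rw [map_add, map_add, LinearMap.add_apply, LinearMap.add_apply, map_add, ha y hy, hb y hy]
  | mul a b _ _ ha hb =>
    have hby : ∃ n : ℕ, (p ^ n) • (heckeEvalBar hcM b y) = 0 :=
      map_torsion (heckeEvalBar hcM b).toAddMonoidHom hy
    rw [map_mul, map_mul, Module.End.mul_apply, Module.End.mul_apply, ha _ hby, hb y hy]

end MapHecke

section DegeneracyHecke

variable (N q : ℕ) [NeZero N] [NeZero q] {p : ℕ}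

omit [NeZero N] [NeZero q] in
theorem not_dvd_of_not_dvd_mul {ℓ : ℕ} (h : ¬ ℓ ∣ N * q * p) : ¬ ℓ ∣ N * p := fun h' =>
  h (by
    obtain ⟨c, hc⟩ := h'
    exact ⟨c * q, by rw [← mul_assoc, ← hc]; ring⟩)

/-- `α_*` commutes with `T_ℓ` (`ℓ ∤ N q p`) on `p`-power torsion. -/
theorem pushA_hecke (hT' : TorsRel (N * q) p) (hT : TorsRel N p) {ℓ : ℕ} (hℓ : ℓ.Prime)
    (hℓN : ¬ ℓ ∣ N * q * p) (y : JZero (N * q)) (hy : ∃ n : ℕ, (p ^ n) • y = 0) :
    pushA N q (heckeOperatorBar (N * q) ⟨ℓ, hℓ⟩ y) = heckeOperatorBar N ⟨ℓ, hℓ⟩ (pushA N q y) :=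
  map_hecke_of_galois (pushA N q) (pushA_galois N q) hT' hT hℓ hℓN
    (not_dvd_of_not_dvd_mul N q hℓN) y hy

/-- `β_*` commutes with `T_ℓ` (`ℓ ∤ N q p`) on `p`-power torsion. -/
theorem pushB_hecke (hT' : TorsRel (N * q) p) (hT : TorsRel N p) {ℓ : ℕ} (hℓ : ℓ.Prime)
    (hℓN : ¬ ℓ ∣ N * q * p) (y : JZero (N * q)) (hy : ∃ n : ℕ, (p ^ n) • y = 0) :
    pushB N q (heckeOperatorBar (N * q) ⟨ℓ, hℓ⟩ y) = heckeOperatorBar N ⟨ℓ, hℓ⟩ (pushB N q y) :=
  map_hecke_of_galois (pushB N q) (pushB_galois N q) hT' hT hℓ hℓN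
    (not_dvd_of_not_dvd_mul N q hℓN) y hy

end DegeneracyHecke

/-! ### `q`-new classes -/

section QNew

variable (N q : ℕ) [NeZero N] [NeZero q]

/-- `x ∈ J₀(N q)` is `q`-new: it is killed by both degeneracy push-forwards to level `N`. -/
def IsQNew (x : JZero (N * q)) : Prop := pushA N q x = 0 ∧ pushB N q x = 0

variable {N q}

theorem isQNew_zero : IsQNew N q 0 := ⟨map_zero _, map_zero _⟩

theorem IsQNew.add {x y : JZero (N * q)} (hx : IsQNew N q x) (hy : IsQNew N q y) :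
    IsQNew N q (x + y) :=
  ⟨by rw [map_add, hx.1, hy.1, add_zero], by rw [map_add, hx.2, hy.2, add_zero]⟩

theorem IsQNew.neg {x : JZero (N * q)} (hx : IsQNew N q x) : IsQNew N q (-x) :=
  ⟨by rw [map_neg, hx.1, neg_zero], by rw [map_neg, hx.2, neg_zero]⟩

theorem IsQNew.nsmul {x : JZero (N * q)} (hx : IsQNew N q x) (n : ℕ) : IsQNew N q (n • x) :=
  ⟨by rw [map_nsmul, hx.1, smul_zero], by rw [map_nsmul, hx.2, smul_zero]⟩

theorem IsQNew.zsmul {x : JZero (N * q)} (hx : IsQNew N q x) (n : ℤ) : IsQNew N q (n • x) :=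
  ⟨by rw [map_zsmul, hx.1, smul_zero], by rw [map_zsmul, hx.2, smul_zero]⟩

theorem IsQNew.galois {x : JZero (N * q)} (hx : IsQNew N q x) (σ : GQ) : IsQNew N q (σ • x) :=
  ⟨by rw [pushA_galois, hx.1]; exact map_zero (DistribSMul.toAddMonoidHom (JZero N) σ),
   by rw [pushB_galois, hx.2]; exact map_zero (DistribSMul.toAddMonoidHom (JZero N) σ)⟩

/-- `q`-newness in terms of divisors: `x = [D]` with `α_* D` and `β_* D` principal. -/
theorem isQNew_mk_iff (D : Divisor.degZero (K := Kbar) (F := modularFunctionFieldBar (N * q))) :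
    IsQNew N q (Pic0.mk D) ↔
      (Divisor.pushforwardAlong (heckeAlphaBar Kbar N q) (heckeAlphaBarIntegral N q)
        (D : Divisor Kbar (modularFunctionFieldBar (N * q)))).IsPrincipal ∧
      (Divisor.pushforwardAlong (heckeBetaBar Kbar N q) (heckeBetaBarIntegral N q)
        (D : Divisor Kbar (modularFunctionFieldBar (N * q)))).IsPrincipal := by
  rw [IsQNew, pushA_mk_eq_zero_iff, pushB_mk_eq_zero_iff]

/-- `T_ℓ` (`ℓ ∤ N q p`) preserves `q`-new `p`-power torsion classes. -/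
theorem IsQNew.hecke {p : ℕ} (hT' : TorsRel (N * q) p) (hT : TorsRel N p) {ℓ : ℕ} (hℓ : ℓ.Prime)
    (hℓN : ¬ ℓ ∣ N * q * p) {y : JZero (N * q)} (hy : ∃ n : ℕ, (p ^ n) • y = 0)
    (hq : IsQNew N q y) : IsQNew N q (heckeOperatorBar (N * q) ⟨ℓ, hℓ⟩ y) :=
  ⟨by rw [pushA_hecke N q hT' hT hℓ hℓN y hy, hq.1, map_zero],
   by rw [pushB_hecke N q hT' hT hℓ hℓN y hy, hq.2, map_zero]⟩

/-- **KILLER ⇒ `q`-new.**  If `t` (supported on the variables `ℓ ∤ N q p`) kills the `p`-power
torsion of `J₀(N)`, then `t • y` is `q`-new for every `p`-power torsion `y ∈ J₀(N q)`. -/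
theorem isQNew_heckeEval {p : ℕ} (hT' : TorsRel (N * q) p) (hT : TorsRel N p)
    (hc' : HeckeOperatorsCommuteBar (N * q)) (hc : HeckeOperatorsCommuteBar N)
    (t : HeckeAlg)
    (ht : t ∈ MvPolynomial.supported ℤ {ℓ : Nat.Primes | ¬ (ℓ : ℕ) ∣ N * q * p})
    (hkill : ∀ z : JZero N, (∃ n : ℕ, (p ^ n) • z = 0) → heckeEvalBar hc t z = 0)
    (y : JZero (N * q)) (hy : ∃ n : ℕ, (p ^ n) • y = 0) :
    IsQNew N q (heckeEvalBar hc' t y) := by
  have ht' : t ∈ MvPolynomial.supported ℤ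
      {ℓ : Nat.Primes | ¬ (ℓ : ℕ) ∣ N * q * p ∧ ¬ (ℓ : ℕ) ∣ N * p} := by
    refine MvPolynomial.supported_mono ?_ ht
    intro ℓ hℓ
    exact ⟨hℓ, not_dvd_of_not_dvd_mul N q hℓ⟩
  constructor
  · rw [map_heckeEval_of_galois (pushA N q) (pushA_galois N q) hT' hT hc' hc t ht' y hy]
    exact hkill _ (map_torsion (pushA N q) hy)
  · rw [map_heckeEval_of_galois (pushB N q) (pushB_galois N q) hT' hT hc' hc t ht' y hy]
    exact hkill _ (map_torsion (pushB N q) hy)

end QNew

end Fermat.Agent.S35.H155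

end
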