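/-
S35 / auxiliary-level pull-back (helper155).

For primes `a ≠ q`, `q ∤ M`, the pull-back `π^* : J₀(M q) → J₀(M a q)` along the inclusion
`F̄_{M q} ⊆ F̄_{M a q}` (`S37.H155.iTop M a q`)

* is Galois equivariant (`pullTop_galois`),
* is injective on `m`-torsion if `a ∤ M q` and `gcd(m, a + 1) = 1` (`pullTop_inj_torsion`),
* intertwines the degeneracy push-forwards (base change, `S37.H818.pullback_pushforward_eq`):
  `α'_* (π^* x) = π_M^* (α_* x)`, `β'_* (π^* x) = π_M^* (β_* x)`
  (`pushA_pullTop`, `pushB_pullTop`; `π_M^* = A2.H155.pullHom M a : J₀(M) → J₀(M a)`).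

The norm compatibility of the `α`-square is `S37.H155.normCompat_square`; the one of the
`β`-square (`normCompat_square_beta`) is proved here from `F̄_{M a q} = F̄_{M q} ⊔ V_q(F̄_{M a})`.
-/
import Mathlib
import Fermat.Agent.S35.H155.B2
import Fermat.Agent.S37.H155.Pull
import Fermat.Agent.S37.H218.Degree
import Fermat.Agent.Lib.X0Deg.Gen
import Fermat.Agent.S29.H801.M1Norm
import Fermat.Agent.Ribet.H801.DegGen
import Fermat.Agent.A2.H155.PullTarget

set_option autoImplicit false
set_option linter.style.haveILetI false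
set_option linter.unusedSectionVars false

noncomputable section

namespace Fermat.Agent.S35.H155

open ModularCurve AlgebraicCurve IntermediateField Fermat.Agent.S37.H818
open Fermat.Agent.Lib.FF398 Fermat.Agent.Lib.X0Deg

/-! ### The inputs of the inclusion `F̄_{M q} ⊆ F̄_{M a q}` -/

section Top

variable (M a q : ℕ) [NeZero M] [NeZero a] [NeZero q]

/-- The inclusion `F̄_{M q} ⊆ F̄_{M a q}`. -/
abbrev iT : modularFunctionFieldBar (M * q) →ₐ[AlgebraicClosure ℚ]
    modularFunctionFieldBar (M * a * q) :=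
  Fermat.Agent.S37.H155.iTop M a q

theorem iT_integral : (iT M a q).toRingHom.IsIntegral :=
  Fermat.Agent.S37.H155.iTop_isIntegral M a q

theorem finiteAlong_iT : FiniteAlong (AlgebraicClosure ℚ) (iT M a q) :=
  finiteAlong_of_functionField _ (Fermat.Agent.S24.jF (M * q)) (transcendental_jF (M * q))
    (Fermat.Agent.S24.jF (M * a * q)) (transcendental_jF (M * a * q))

theorem fundamentalIdentityAlong_iT :
    FundamentalIdentityAlong (AlgebraicClosure ℚ) (iT M a q) (iT_integral M a q) := by
  letI := algebraAlong (iT M a q)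
  haveI := isScalarTower_along (iT M a q)
  haveI : Module.Finite (Fermat.Agent.S24.FF (M * q)) (Fermat.Agent.S24.FF (M * a * q)) :=
    finiteAlong_iT M a q
  haveI : CharZero (Fermat.Agent.S24.FF (M * q)) :=
    charZero_of_injective_algebraMap
      (algebraMap (AlgebraicClosure ℚ) (Fermat.Agent.S24.FF (M * q))).injective
  exact fundamentalIdentity (K := AlgebraicClosure ℚ) (F := Fermat.Agent.S24.FF (M * q))
    (F' := Fermat.Agent.S24.FF (M * a * q)) (deg_eq_one_FF (M * a * q))

theorem normFormulaAlong_iT :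
    NormFormulaAlong (AlgebraicClosure ℚ) (iT M a q) (finiteAlong_iT M a q) := by
  letI := algebraAlong (iT M a q)
  haveI := isScalarTower_along (iT M a q)
  haveI : Module.Finite (Fermat.Agent.S24.FF (M * q)) (Fermat.Agent.S24.FF (M * a * q)) :=
    finiteAlong_iT M a q
  haveI : CharZero (Fermat.Agent.S24.FF (M * q)) :=
    charZero_of_injective_algebraMap
      (algebraMap (AlgebraicClosure ℚ) (Fermat.Agent.S24.FF (M * q))).injective
  exact pushforwardNormFormula (K := AlgebraicClosure ℚ) (F := Fermat.Agent.S24.FF (M * q))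
    (F' := Fermat.Agent.S24.FF (M * a * q)) (deg_eq_one_FF (M * a * q))

theorem sumRamificationInertiaAlong_iT :
    Fermat.Agent.S37.H155.SumRamificationInertiaAlong (iT M a q) (iT_integral M a q) := by
  letI := algebraAlong (iT M a q)
  haveI := isScalarTower_along (iT M a q)
  haveI : Module.Finite (Fermat.Agent.S24.FF (M * q)) (Fermat.Agent.S24.FF (M * a * q)) :=
    finiteAlong_iT M a q
  haveI : CharZero (Fermat.Agent.S24.FF (M * q)) :=
    charZero_of_injective_algebraMap
      (algebraMap (AlgebraicClosure ℚ) (Fermat.Agent.S24.FF (M * q))).injective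
  exact sumRamificationInertia (K := AlgebraicClosure ℚ) (F := Fermat.Agent.S24.FF (M * q))
    (F' := Fermat.Agent.S24.FF (M * a * q)) (deg_eq_one_FF (M * a * q))

/-- `[F̄_{M a q} : F̄_{M q}] = a + 1` for a prime `a ∤ M q`. -/
theorem finrankAlong_iT (ha : a.Prime) (h : ¬ a ∣ M * q) :
    finrankAlong (AlgebraicClosure ℚ) (iT M a q) = a + 1 := by
  have h0 : finrankAlong (AlgebraicClosure ℚ) (iT M a q)
      = (modularFunctionFieldBar (M * q)).relfinrank (modularFunctionFieldBar (M * a * q)) :=
    finrankAlong_inclusion _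
  have hdvd : M * q ∣ M * a * q := ⟨a, by ring⟩
  have h1 := relfinrank_mul_psi hdvd
  have h2 : dedekindPsi (M * a * q) = (a + 1) * dedekindPsi (M * q) := by
    have e : M * a * q = a * (M * q) := by ring
    rw [e]
    exact Fermat.Agent.S20.Comb694.dedekindPsi_prime_mul_of_not_dvd a (M * q) ha
      (NeZero.ne (M * q)) h
  rw [h0]
  exact Nat.eq_of_mul_eq_mul_right (dedekindPsi_pos (M * q)) (h1.trans h2)

/-- The pull-back `π^* : J₀(M q) → J₀(M a q)`. -/
def pullTop : JZero (M * q) →+ JZero (M * a * q) :=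
  pullbackPic0Along (iT M a q) (iT_integral M a q) (fundamentalIdentityAlong_iT M a q)

theorem intertwines_iT (σ : AlgebraicClosure ℚ ≃ₐ[ℚ] AlgebraicClosure ℚ) :
    SemilinearAut.IntertwinesAlong
      ((iT M a q : modularFunctionFieldBar (M * q) →ₐ[AlgebraicClosure ℚ]
        modularFunctionFieldBar (M * a * q)) : _ →+* _)
      (arithmeticGalois (modularFunctionFieldFull (M * q)) σ)
      (arithmeticGalois (modularFunctionFieldFull (M * a * q)) σ) := by
  intro x
  apply Subtype.ext
  rw [coe_arithmeticGalois_smul]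
  show coeffMap (σ : AlgebraicClosure ℚ →+* AlgebraicClosure ℚ)
    ((iT M a q x : _) : LaurentSeries (AlgebraicClosure ℚ)) = _
  rw [Fermat.Agent.S37.H155.coe_iTop]
  show _ = ((iT M a q (arithmeticGalois (modularFunctionFieldFull (M * q)) σ • x) : _) :
    LaurentSeries (AlgebraicClosure ℚ))
  rw [Fermat.Agent.S37.H155.coe_iTop, coe_arithmeticGalois_smul]

theorem pullTop_galois (σ : AlgebraicClosure ℚ ≃ₐ[ℚ] AlgebraicClosure ℚ) (x : JZero (M * q)) :
    pullTop M a q (σ • x) = σ • pullTop M a q x := by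
  rw [galois_smul_pic0_def, galois_smul_pic0_def]
  exact Fermat.Agent.S37.H155.pullbackPic0Along_smul _ _ _ (intertwines_iT M a q σ) x

theorem pullTop_inj_torsion (ha : a.Prime) (haN : ¬ a ∣ M * q) (m : ℕ)
    (hcop : Nat.Coprime m (a + 1)) (x : JZero (M * q)) (hm : m • x = 0)
    (hx : pullTop M a q x = 0) : x = 0 := by
  refine Fermat.Agent.S37.H155.pullbackPic0Along_eq_zero (iT M a q) (iT_integral M a q)
    (fundamentalIdentityAlong_iT M a q) (sumRamificationInertiaAlong_iT M a q)
    (finiteAlong_iT M a q) (normFormulaAlong_iT M a q) m ?_ x hm hx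
  rw [finrankAlong_iT M a q ha haN]
  exact hcop

end Top

/-! ### The `β`-square -/

section BetaSquare

variable (M a q : ℕ) [NeZero M] [NeZero a] [NeZero q]

theorem smul_beta_coe (c : modularFunctionFieldBar (M * a))
    (x : modularFunctionFieldBar (M * a * q)) :
    letI := algebraAlong (heckeBetaBar (AlgebraicClosure ℚ) (M * a) q)
    ((c • x : modularFunctionFieldBar (M * a * q)) : LaurentSeries (AlgebraicClosure ℚ)) =
      qExpand (AlgebraicClosure ℚ) q (c : LaurentSeries (AlgebraicClosure ℚ)) *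
        (x : LaurentSeries (AlgebraicClosure ℚ)) := by
  letI := algebraAlong (heckeBetaBar (AlgebraicClosure ℚ) (M * a) q)
  have h1 : c • x = heckeBetaBar (AlgebraicClosure ℚ) (M * a) q c * x := rfl
  rw [h1, MulMemClass.coe_mul, coe_heckeBetaBar]

/-- The image of `F̄_{M q}` spans `F̄_{M a q}` over `β(F̄_{M a})`. -/
theorem span_range_iT (hq : q.Prime) (g : modularFunctionFieldBar (M * a * q)) :
    g ∈ (letI := algebraAlong (heckeBetaBar (AlgebraicClosure ℚ) (M * a) q);
      Submodule.span (modularFunctionFieldBar (M * a)) (Set.range (iT M a q))) := by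
  letI := algebraAlong (heckeBetaBar (AlgebraicClosure ℚ) (M * a) q)
  have hdvd : M * q ∣ M * a * q := ⟨a, by ring⟩
  have hsup : modularFunctionFieldBar (M * a * q)
      = modularFunctionFieldBar (M * q) ⊔
        (modularFunctionFieldBar (M * a)).map (qExpandAlgHomC (AlgebraicClosure ℚ) q) :=
    modularFunctionFieldBar_mul_eq_sup (M := M * a) q hdvd
  have hAT : (modularFunctionFieldBar (M * a)).map (qExpandAlgHomC (AlgebraicClosure ℚ) q)
      ≤ modularFunctionFieldBar (M * a * q) := Fermat.Agent.S37.H218.map_qExpand_bar_le (M * a) q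
  have hd : ((modularFunctionFieldBar (M * a)).map
      (qExpandAlgHomC (AlgebraicClosure ℚ) q)).relfinrank (modularFunctionFieldBar (M * a * q))
        ≠ 0 := by
    rw [Fermat.Agent.S37.H218.relfinrank_map_qExpand_bar_mul_prime (M * a) q (NeZero.ne _) hq]
    split_ifs
    · exact hq.ne_zero
    · omega
  have halg : ∀ x ∈ modularFunctionFieldBar (M * q),
      IsAlgebraic ((modularFunctionFieldBar (M * a)).map
        (qExpandAlgHomC (AlgebraicClosure ℚ) q)) x := by
    intro x hx
    exact Fermat.Agent.Ribet.H801.isAlgebraic_of_relfinrank_ne_zero hAT hd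
      (modularFunctionFieldBar_mono hdvd hx)
  have ht : (g : LaurentSeries (AlgebraicClosure ℚ)) ∈
      (modularFunctionFieldBar (M * a)).map (qExpandAlgHomC (AlgebraicClosure ℚ) q) ⊔
        modularFunctionFieldBar (M * q) := by
    rw [sup_comm, ← hsup]
    exact g.2
  have hs := Fermat.Agent.S29.H801.mem_span_of_mem_sup _ _ halg ht
  have key : ∀ x : LaurentSeries (AlgebraicClosure ℚ),
      x ∈ Submodule.span
        ((modularFunctionFieldBar (M * a)).map (qExpandAlgHomC (AlgebraicClosure ℚ) q))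
        ((modularFunctionFieldBar (M * q) :
          IntermediateField (AlgebraicClosure ℚ) (LaurentSeries (AlgebraicClosure ℚ))) :
            Set (LaurentSeries (AlgebraicClosure ℚ))) →
      ∃ y : modularFunctionFieldBar (M * a * q),
        y ∈ Submodule.span (modularFunctionFieldBar (M * a)) (Set.range (iT M a q)) ∧
        (y : LaurentSeries (AlgebraicClosure ℚ)) = x := by
    intro x hx
    induction hx using Submodule.span_induction with
    | mem x hx =>
      refine ⟨iT M a q ⟨x, hx⟩, Submodule.subset_span ⟨_, rfl⟩, ?_⟩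
      exact Fermat.Agent.S37.H155.coe_iTop M a q ⟨x, hx⟩
    | zero => exact ⟨0, Submodule.zero_mem _, rfl⟩
    | add x y _ _ hx hy =>
      obtain ⟨x', hx', rfl⟩ := hx
      obtain ⟨y', hy', rfl⟩ := hy
      exact ⟨x' + y', Submodule.add_mem _ hx' hy', rfl⟩
    | smul c x _ hx =>
      obtain ⟨x', hx', rfl⟩ := hx
      obtain ⟨g', hg', hgc⟩ := c.2
      refine ⟨(⟨g', hg'⟩ : modularFunctionFieldBar (M * a)) • x', Submodule.smul_mem _ _ hx', ?_⟩
      rw [smul_beta_coe, Algebra.smul_def]
      congr 1
  obtain ⟨y, hy, hyt⟩ := key _ hs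
  have : y = g := Subtype.ext hyt
  rw [← this]
  exact hy

/-- **Norm compatibility of the `β`-square**

      F_M    --β_q-->  F_{Mq}
       |α_a             |incl
       v                v
      F_{Ma} --β_q-->  F_{Maq}          (`q` prime, `q ∤ M a`). -/
theorem normCompat_square_beta (hq : q.Prime) (hqM : ¬ q ∣ M) (hqa : ¬ q ∣ M * a) :
    NormCompat (heckeBetaBar (AlgebraicClosure ℚ) M q) (heckeAlphaBar (AlgebraicClosure ℚ) M a)
      (heckeBetaBar (AlgebraicClosure ℚ) (M * a) q) (iT M a q) := by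
  refine Fermat.Agent.S37.H155.normCompat_of_span _ _ _ _ (Fermat.Agent.S37.H155.sq_beta M a q)
    (finiteAlong_beta M q) ?_ (span_range_iT M a q hq)
  rw [Fermat.Agent.S37.H218.finrankAlong_heckeBetaBar_of_not_dvd M q hq hqM,
    Fermat.Agent.S37.H218.finrankAlong_heckeBetaBar_of_not_dvd (M * a) q hq hqa]

end BetaSquare

/-! ### Base change: `π^*` intertwines the degeneracy push-forwards -/

section AbstractBC

variable {K F F₁ G G₁ : Type*} [Field K] [Field F] [Field F₁] [Field G] [Field G₁]
  [Algebra K F] [Algebra K F₁] [Algebra K G] [Algebra K G₁]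
  [HasPrincipalDivisors K G] [HasPrincipalDivisors K G₁] [HasPrincipalDivisors K F₁]

/-- **Base change on `Pic0`**: `a'_* ∘ i₁^* = i^* ∘ a_*` for a commutative square with compatible
norms. -/
theorem pushforwardPic0Along_pullbackPic0Along
    (a : F →ₐ[K] F₁) (i : F →ₐ[K] G) (a' : G →ₐ[K] G₁) (i₁ : F₁ →ₐ[K] G₁)
    (ha : a.toRingHom.IsIntegral) (hi : i.toRingHom.IsIntegral)
    (ha' : a'.toRingHom.IsIntegral) (hi₁ : i₁.toRingHom.IsIntegral)
    (hsq : i₁.comp a = a'.comp i)
    (hfin : FiniteAlong K a) (hN : NormFormulaAlong K a hfin)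
    (hfin' : FiniteAlong K a') (hN' : NormFormulaAlong K a' hfin')
    (hFIi : FundamentalIdentityAlong K i hi) (hFIi₁ : FundamentalIdentityAlong K i₁ hi₁)
    (hnorm : NormCompat a i a' i₁) (hLG : HasLocalGenerators a ha) (x : Pic0 K F₁) :
    pushforwardPic0Along a' ha' hfin' hN' (pullbackPic0Along i₁ hi₁ hFIi₁ x) =
      pullbackPic0Along i hi hFIi (pushforwardPic0Along a ha hfin hN x) := by
  obtain ⟨D, rfl⟩ := Pic0.mk_surjective x
  rw [pullbackPic0Along_mk, pushforwardPic0Along_mk, pushforwardPic0Along_mk,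
    pullbackPic0Along_mk]
  refine congrArg Pic0.mk (Subtype.ext ?_)
  rw [coe_pushforwardDegZeroAlong, coe_pullbackDegZeroAlong, coe_pullbackDegZeroAlong,
    coe_pushforwardDegZeroAlong]
  exact (pullback_pushforward_eq a i a' i₁ ha hi ha' hi₁ hsq hfin hN hfin' hN' hnorm hLG
    (D : Divisor K F₁)).symm

end AbstractBC

section BaseChange

variable (M a q : ℕ) [NeZero M] [NeZero a] [NeZero q]

/-- `α'_* (π^* x) = π_M^* (α_* x)`. -/
theorem pushA_pullTop (hq : q.Prime) (ha : a.Prime) (hne : a ≠ q) (x : JZero (M * q)) :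
    pushA (M * a) q (pullTop M a q x) = Fermat.Agent.A2.H155.pullHom M a (pushA M q x) :=
  pushforwardPic0Along_pullbackPic0Along (heckeAlphaBar (AlgebraicClosure ℚ) M q)
    (heckeAlphaBar (AlgebraicClosure ℚ) M a) (heckeAlphaBar (AlgebraicClosure ℚ) (M * a) q)
    (iT M a q) (heckeAlphaBarIntegral M q) (heckeAlphaBarIntegral M a)
    (heckeAlphaBarIntegral (M * a) q) (iT_integral M a q)
    (Fermat.Agent.S37.H155.sq_alpha M a q)
    (finiteAlong_alpha M q) (normFormulaAlong_alpha M q)
    (finiteAlong_alpha (M * a) q) (normFormulaAlong_alpha (M * a) q)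
    (fundamentalIdentityAlong_alpha M a) (fundamentalIdentityAlong_iT M a q)
    (Fermat.Agent.S37.H155.normCompat_square M a q hq ha hne)
    (Fermat.Agent.S37.H155.hasLocalGenerators _ _) x

/-- `β'_* (π^* x) = π_M^* (β_* x)`. -/
theorem pushB_pullTop (hq : q.Prime) (hqM : ¬ q ∣ M) (hqa : ¬ q ∣ M * a) (x : JZero (M * q)) :
    pushB (M * a) q (pullTop M a q x) = Fermat.Agent.A2.H155.pullHom M a (pushB M q x) :=
  pushforwardPic0Along_pullbackPic0Along (heckeBetaBar (AlgebraicClosure ℚ) M q)
    (heckeAlphaBar (AlgebraicClosure ℚ) M a) (heckeBetaBar (AlgebraicClosure ℚ) (M * a) q)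
    (iT M a q) (heckeBetaBarIntegral M q) (heckeAlphaBarIntegral M a)
    (heckeBetaBarIntegral (M * a) q) (iT_integral M a q)
    (Fermat.Agent.S37.H155.sq_beta M a q)
    (finiteAlong_beta M q) (normFormulaAlong_beta M q)
    (finiteAlong_beta (M * a) q) (normFormulaAlong_beta (M * a) q)
    (fundamentalIdentityAlong_alpha M a) (fundamentalIdentityAlong_iT M a q)
    (normCompat_square_beta M a q hq hqM hqa)
    (Fermat.Agent.S37.H155.hasLocalGenerators _ _) x

end BaseChange

end Fermat.Agent.S35.H155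

end
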