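/-
S35 (G') / leaf D2F (helper155): auxiliary-level descent.

`newPartFrobAt_of_mul` : `NewPartFrobAt (M * a) q m → NewPartFrobAt M q m` for primes `a ≠ q`,
`a ∤ M`, `q ∤ M`, `gcd(m, a + 1) = 1`   (pull back along `X₀(M a q) → X₀(M q)`, `AuxPull.lean`);
`d2f` : `G.D2FStatement` (helper450's `Spec.lean`, VERBATIM).
-/
import Mathlib
import Fermat.Agent.S35.G.Spec
import Fermat.Agent.S35.H155.AuxPull

set_option autoImplicit false
set_option linter.style.haveILetI false
set_option linter.unusedSectionVars false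

noncomputable section

namespace Fermat.Agent.S35.H155

open ModularCurve AlgebraicCurve Fermat.Agent.Lib.FF398

/-! ### `degA = pushA`, `degB = pushB` -/

section Deg

variable (M q : ℕ) [NeZero M] [NeZero q]

theorem degA_eq_pushA : Fermat.Agent.S35.G.degA M q = pushA M q := by
  unfold Fermat.Agent.S35.G.degA
  rw [Fermat.Agent.S35.G.pic0PushTotal_eq _ (heckeAlphaBarIntegral M q) (finiteAlong_alpha M q)
    (normFormulaAlong_alpha M q)]
  rfl

theorem degB_eq_pushB : Fermat.Agent.S35.G.degB M q = pushB M q := by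
  unfold Fermat.Agent.S35.G.degB
  rw [Fermat.Agent.S35.G.pic0PushTotal_eq _ (heckeBetaBarIntegral M q) (finiteAlong_beta M q)
    (normFormulaAlong_beta M q)]
  rfl

end Deg

/-! ### The polynomial `(t - 1)² (t - Q)` and equivariant maps -/

section FrobPoly

variable {Γ X Y : Type*} [Group Γ] [AddCommGroup X] [AddCommGroup Y]
  [DistribMulAction Γ X] [DistribMulAction Γ Y]

theorem frobPolyAdd_map (f : X →+ Y) (hf : ∀ (g : Γ) (x : X), f (g • x) = g • f x)
    (t : Γ) (Q : ℕ) (x : X) :
    f (Fermat.Agent.S35.G.frobPolyAdd t Q x) = Fermat.Agent.S35.G.frobPolyAdd t Q (f x) := by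
  simp only [Fermat.Agent.S35.G.frobPolyAdd, map_sub, map_nsmul, hf]

theorem smul_torsion (m : ℕ) (t : Γ) (x : X) (hx : m • x = 0) : m • (t • x) = 0 := by
  have e : m • (t • x) = t • (m • x) :=
    (map_nsmul (DistribSMul.toAddMonoidHom X t) m x).symm
  rw [e, hx]
  exact map_zero (DistribSMul.toAddMonoidHom X t)

theorem frobPolyAdd_torsion (m : ℕ) (t : Γ) (Q : ℕ) (x : X) (hx : m • x = 0) :
    m • Fermat.Agent.S35.G.frobPolyAdd t Q x = 0 := by
  have h1 : m • (t • x) = 0 := smul_torsion m t x hx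
  have h2 : m • (t • x - x) = 0 := by rw [nsmul_sub, h1, hx, sub_zero]
  have h3 : m • (t • (t • x - x)) = 0 := smul_torsion m t _ h2
  have h4 : m • (t • (t • x - x) - (t • x - x)) = 0 := by rw [nsmul_sub, h3, h2, sub_zero]
  have h5 : m • (t • (t • (t • x - x) - (t • x - x))) = 0 := smul_torsion m t _ h4
  have h6 : m • (Q • (t • (t • x - x) - (t • x - x))) = 0 := by
    rw [nsmul_left_comm, h4, nsmul_zero]
  unfold Fermat.Agent.S35.G.frobPolyAdd
  rw [nsmul_sub, h5, h6, sub_zero]

end FrobPoly

/-! ### The descent -/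

/-- **Auxiliary-level descent for (G').** -/
theorem newPartFrobAt_of_mul (M a q m : ℕ) [NeZero M] [NeZero a] [NeZero q] (hq : q.Prime)
    (ha : a.Prime) (hne : a ≠ q) (hqM : ¬ q ∣ M) (haM : ¬ a ∣ M)
    (hcop : Nat.Coprime m (a + 1))
    (h : Fermat.Agent.S35.G.NewPartFrobAt (M * a) q m) :
    Fermat.Agent.S35.G.NewPartFrobAt M q m := by
  intro A hA s hs x hx hax hbx
  have hqa : ¬ q ∣ M * a := by
    intro hd
    rcases (Nat.Prime.dvd_mul hq).mp hd with h1 | h1
    · exact hqM h1
    · exact hne ((Nat.prime_dvd_prime_iff_eq hq ha).mp h1).symm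
  have haq : ¬ a ∣ M * q := by
    intro hd
    rcases (Nat.Prime.dvd_mul ha).mp hd with h1 | h1
    · exact haM h1
    · exact hne ((Nat.prime_dvd_prime_iff_eq ha hq).mp h1)
  have hx' : m • pullTop M a q x = 0 := by rw [← map_nsmul, hx, map_zero]
  have hax' : Fermat.Agent.S35.G.degA (M * a) q (pullTop M a q x) = 0 := by
    rw [degA_eq_pushA, pushA_pullTop M a q hq ha hne, ← degA_eq_pushA, hax, map_zero]
  have hbx' : Fermat.Agent.S35.G.degB (M * a) q (pullTop M a q x) = 0 := by
    rw [degB_eq_pushB, pushB_pullTop M a q hq hqM hqa, ← degB_eq_pushB, hbx, map_zero]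
  have h1 := h A hA s hs (pullTop M a q x) hx' hax' hbx'
  rw [← frobPolyAdd_map (pullTop M a q) (pullTop_galois M a q)] at h1
  exact pullTop_inj_torsion M a q ha haq m hcop _
    (frobPolyAdd_torsion m (s * s) (q ^ 2) x hx) h1

theorem newPartFrobAt_congr {M M' : ℕ} (e : M = M') (q m : ℕ) [hM : NeZero M] [hM' : NeZero M']
    [NeZero q] (h : Fermat.Agent.S35.G.NewPartFrobAt M q m) :
    Fermat.Agent.S35.G.NewPartFrobAt M' q m := by
  subst e
  exact h

/-- **Leaf D2F** of `coord/S35-G-helper450.md`. -/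
theorem d2f : Fermat.Agent.S35.G.D2FStatement := by
  intro M q m _ _ _ hq hqM hm hqm h
  by_cases h3 : q = 3
  · subst h3
    by_cases h2 : 2 ∣ M
    · have e : Fermat.Agent.S35.G.auxM M 3 = M := by
        unfold Fermat.Agent.S35.G.auxM
        rw [if_pos rfl]
        exact Nat.lcm_eq_left h2
      exact newPartFrobAt_congr e 3 m h
    · have e : Fermat.Agent.S35.G.auxM M 3 = M * 2 := by
        unfold Fermat.Agent.S35.G.auxM
        rw [if_pos rfl]
        exact Nat.Coprime.lcm_eq_mul
          ((Nat.Prime.coprime_iff_not_dvd Nat.prime_two).mpr h2).symm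
      refine newPartFrobAt_of_mul M 2 3 m Nat.prime_three Nat.prime_two (by decide) hqM h2 ?_
        (newPartFrobAt_congr e 3 m h)
      exact ((Nat.Prime.coprime_iff_not_dvd Nat.prime_three).mpr hqm).symm
  · by_cases h2 : q = 2
    · subst h2
      by_cases h3' : 3 ∣ M
      · have e : Fermat.Agent.S35.G.auxM M 2 = M := by
          unfold Fermat.Agent.S35.G.auxM
          rw [if_neg (by decide), if_pos rfl]
          exact Nat.lcm_eq_left h3'
        exact newPartFrobAt_congr e 2 m h
      · have e : Fermat.Agent.S35.G.auxM M 2 = M * 3 := by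
          unfold Fermat.Agent.S35.G.auxM
          rw [if_neg (by decide), if_pos rfl]
          exact Nat.Coprime.lcm_eq_mul
            ((Nat.Prime.coprime_iff_not_dvd Nat.prime_three).mpr h3').symm
        refine newPartFrobAt_of_mul M 3 2 m Nat.prime_two Nat.prime_three (by decide) hqM h3' ?_
          (newPartFrobAt_congr e 2 m h)
        have hc2 : Nat.Coprime m 2 :=
          ((Nat.Prime.coprime_iff_not_dvd Nat.prime_two).mpr hqm).symm
        have : Nat.Coprime m (2 ^ 2) := Nat.Coprime.pow_right 2 hc2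
        simpa using this
    · have e : Fermat.Agent.S35.G.auxM M q = M := by
        unfold Fermat.Agent.S35.G.auxM
        rw [if_neg h3, if_neg h2]
      exact newPartFrobAt_congr e q m h

end Fermat.Agent.S35.H155

end
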