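/-
S35 / cell FROB, leaf B2 (helper155), GEOMETRIC form: the degeneracy push-forwards
`pushA`, `pushB : J₀(N q) → J₀(N)` commute with `T_ℓ` on ALL of `J₀(N q)(ℚ̄)`, for every prime
`ℓ ≠ q` (no torsion hypothesis, no torsion relations).

Source: helper801's `Ribet/H801/{DegAlpha,DegBeta}.lean` (base change along the mixed squares);
this file identifies `pushA = alphaPush`, `pushB = betaPush` and restates the result for the
S35 interface (`IsQNew`).
-/
import Fermat.Agent.S35.H155.B2
import Fermat.Agent.Ribet.H801.DegBeta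

set_option autoImplicit false
set_option linter.style.haveILetI false

noncomputable section

namespace Fermat.Agent.S35.H155

open AlgebraicCurve ModularCurve

variable (N q : ℕ) [NeZero N] [NeZero q]

theorem pushA_eq_alphaPush : pushA N q = Fermat.Agent.Ribet.H801.alphaPush N q := by
  refine AddMonoidHom.ext fun x => ?_
  obtain ⟨D, rfl⟩ := Pic0.mk_surjective x
  rfl

theorem pushB_eq_betaPush : pushB N q = Fermat.Agent.Ribet.H801.betaPush N q := by
  refine AddMonoidHom.ext fun x => ?_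
  obtain ⟨D, rfl⟩ := Pic0.mk_surjective x
  rfl

/-- **`α_*` is Hecke-equivariant** on all of `J₀(N q)`: `α_* (T_ℓ x) = T_ℓ (α_* x)`, `ℓ ≠ q`. -/
theorem pushA_heckeOperatorBar (hq : q.Prime) (ℓ : Nat.Primes) (hne : (ℓ : ℕ) ≠ q)
    (x : JZero (N * q)) :
    pushA N q (heckeOperatorBar (N * q) ℓ x) = heckeOperatorBar N ℓ (pushA N q x) := by
  rw [pushA_eq_alphaPush]
  exact Fermat.Agent.Ribet.H801.alphaPush_heckeOperatorBar N q hq ℓ hne x

/-- **`β_*` is Hecke-equivariant** on all of `J₀(N q)`: `β_* (T_ℓ x) = T_ℓ (β_* x)`, `ℓ ≠ q`. -/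
theorem pushB_heckeOperatorBar (hq : q.Prime) (ℓ : Nat.Primes) (hne : (ℓ : ℕ) ≠ q)
    (x : JZero (N * q)) :
    pushB N q (heckeOperatorBar (N * q) ℓ x) = heckeOperatorBar N ℓ (pushB N q x) := by
  rw [pushB_eq_betaPush]
  exact Fermat.Agent.Ribet.H801.betaPush_heckeOperatorBar N q hq ℓ hne x

variable {N q}

/-- `T_ℓ` (`ℓ ≠ q`) preserves `q`-new classes (no torsion hypothesis). -/
theorem IsQNew.heckeOperatorBar (hq : q.Prime) (ℓ : Nat.Primes) (hne : (ℓ : ℕ) ≠ q)
    {x : JZero (N * q)} (hx : IsQNew N q x) : IsQNew N q (heckeOperatorBar (N * q) ℓ x) :=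
  ⟨by rw [pushA_heckeOperatorBar N q hq ℓ hne, hx.1, map_zero],
   by rw [pushB_heckeOperatorBar N q hq ℓ hne, hx.2, map_zero]⟩

/-- Polynomial form: every element of the abstract Hecke algebra supported away from `q`
commutes with `α_*` and `β_*`. -/
theorem push_heckeEvalBar (hq : q.Prime) (hc' : HeckeOperatorsCommuteBar (N * q))
    (hc : HeckeOperatorsCommuteBar N) (t : HeckeAlg)
    (ht : t ∈ MvPolynomial.supported ℤ {ℓ : Nat.Primes | (ℓ : ℕ) ≠ q}) (x : JZero (N * q)) :
    pushA N q (heckeEvalBar hc' t x) = heckeEvalBar hc t (pushA N q x) ∧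
      pushB N q (heckeEvalBar hc' t x) = heckeEvalBar hc t (pushB N q x) := by
  rw [MvPolynomial.supported_eq_adjoin_X] at ht
  induction ht using Algebra.adjoin_induction generalizing x with
  | mem t ht =>
    obtain ⟨ℓ, hℓ, rfl⟩ := ht
    rw [show (MvPolynomial.X ℓ : HeckeAlg) = heckeGen ℓ from rfl, heckeEvalBar_heckeGen,
      heckeEvalBar_heckeGen]
    exact ⟨pushA_heckeOperatorBar N q hq ℓ hℓ x, pushB_heckeOperatorBar N q hq ℓ hℓ x⟩
  | algebraMap r =>
    rw [MvPolynomial.algebraMap_eq, heckeEvalBar_C, heckeEvalBar_C, Module.End.intCast_apply,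
      Module.End.intCast_apply, map_zsmul, map_zsmul]
    exact ⟨rfl, rfl⟩
  | add a b _ _ ha hb =>
    rw [map_add, map_add, LinearMap.add_apply, LinearMap.add_apply, map_add, map_add,
      (ha x).1, (hb x).1, (ha x).2, (hb x).2]
    exact ⟨rfl, rfl⟩
  | mul a b _ _ ha hb =>
    rw [map_mul, map_mul, Module.End.mul_apply, Module.End.mul_apply, (ha _).1, (hb x).1,
      (ha _).2, (hb x).2]
    exact ⟨rfl, rfl⟩

/-- **KILLER ⇒ `q`-new**, geometric form: if `t` (supported away from `q`) kills `J₀(N)`,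
then `t • y` is `q`-new for every `y ∈ J₀(N q)`. -/
theorem isQNew_heckeEvalBar_of_kills (hq : q.Prime) (hc' : HeckeOperatorsCommuteBar (N * q))
    (hc : HeckeOperatorsCommuteBar N) (t : HeckeAlg)
    (ht : t ∈ MvPolynomial.supported ℤ {ℓ : Nat.Primes | (ℓ : ℕ) ≠ q})
    (P : JZero N → Prop) (hkill : ∀ z : JZero N, P z → heckeEvalBar hc t z = 0)
    (y : JZero (N * q)) (hA : P (pushA N q y)) (hB : P (pushB N q y)) :
    IsQNew N q (heckeEvalBar hc' t y) :=
  ⟨by rw [(push_heckeEvalBar hq hc' hc t ht y).1]; exact hkill _ hA,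
   by rw [(push_heckeEvalBar hq hc' hc t ht y).2]; exact hkill _ hB⟩

end Fermat.Agent.S35.H155

end
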