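/-
S35 / cell FROB, leaf B2 (helper155): adapter between `H155.IsQNew` (kernel of both degeneracy
push-forwards) and the divisor form `H891.IsQNew` of the frozen interface `S35/H891/Spec.lean`.
-/
import Fermat.Agent.S35.H155.B2
import Fermat.Agent.S35.H891.Spec

set_option autoImplicit false
set_option linter.style.haveILetI false

noncomputable section

namespace Fermat.Agent.S35.H155

open AlgebraicCurve ModularCurve Fermat.Agent.Lib.FF398

/-- The two notions of `q`-new classes agree. -/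
theorem isQNew_iff_spec (N q : ℕ) [NeZero N] [NeZero q] (x : JZero (N * q)) :
    Fermat.Agent.S35.H891.IsQNew N q x ↔ IsQNew N q x := by
  constructor
  · rintro ⟨hα, hβ, D, rfl, h1, h2⟩
    exact (isQNew_mk_iff D).mpr ⟨h1, h2⟩
  · intro h
    obtain ⟨D, rfl⟩ := Pic0.mk_surjective x
    obtain ⟨h1, h2⟩ := (isQNew_mk_iff D).mp h
    exact ⟨heckeAlphaBarIntegral N q, heckeBetaBarIntegral N q, D, rfl, h1, h2⟩

/-- Spec form of `isQNew_heckeEval`: KILLER ⇒ `q`-new (interface `H891.IsQNew`). -/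
theorem isQNew_spec_heckeEval (N q : ℕ) [NeZero N] [NeZero q] {p : ℕ}
    (hT' : TorsRel (N * q) p) (hT : TorsRel N p)
    (hc' : HeckeOperatorsCommuteBar (N * q)) (hc : HeckeOperatorsCommuteBar N)
    (t : HeckeAlg)
    (ht : t ∈ MvPolynomial.supported ℤ {ℓ : Nat.Primes | ¬ (ℓ : ℕ) ∣ N * q * p})
    (hkill : ∀ z : JZero N, (∃ n : ℕ, (p ^ n) • z = 0) → heckeEvalBar hc t z = 0)
    (y : JZero (N * q)) (hy : ∃ n : ℕ, (p ^ n) • y = 0) :
    Fermat.Agent.S35.H891.IsQNew N q (heckeEvalBar hc' t y) :=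
  (isQNew_iff_spec N q _).mpr (isQNew_heckeEval hT' hT hc' hc t ht hkill y hy)

end Fermat.Agent.S35.H155

end
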